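import Fermat.Agent.Ribet.H220.S2Level

/-!
# Row 38, WALL-p, (S2): leaf MERGE (helper73)

`merge : H220.MergeStatement` — weak approximation for two distinct discrete valuation rings with
a common uniformiser: `f ∈ Fˣᵖ(1 + rV₁) ∩ Fˣᵖ(1 + rV₂)` ⟹ `f = hᵖ·u`, `u ∈ (1 + rV₁) ∩ (1 + rV₂)`.

Mathlib + `A2.H48.IsUnif` (`exists_separating`) only.
-/

set_option autoImplicit false

namespace Fermat.Agent.Ribet.H73

open Fermat.Agent.A2 Fermat.Agent.Ribet.H220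

variable {F : Type*} [Field F]

/-! ### The group `1 + r V` -/

theorem val_lt_one_of_mem {V : ValuationSubring F} {π r : F} (hπ : H48.IsUnif V π)
    (hr : r * π⁻¹ ∈ V) {y : F} (hy : y ∈ V) : V.valuation (r * y) < 1 := by
  have h1 : V.valuation (r * π⁻¹) ≤ 1 := (V.valuation_le_one_iff _).2 hr
  have h2 : V.valuation y ≤ 1 := (V.valuation_le_one_iff _).2 hy
  have h3 : r * y = (r * π⁻¹) * y * π := by
    field_simp [hπ.ne_zero]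
  rw [h3, map_mul, map_mul]
  calc V.valuation (r * π⁻¹) * V.valuation y * V.valuation π
      ≤ 1 * 1 * V.valuation π := by gcongr
    _ < 1 := by rw [one_mul, one_mul]; exact hπ.val_lt_one

theorem mem_of_mul_inv_mem {V : ValuationSubring F} {π r : F} (hπ : H48.IsUnif V π)
    (hr : r * π⁻¹ ∈ V) : r ∈ V := by
  have : r = (r * π⁻¹) * π := by field_simp [hπ.ne_zero]
  rw [this]
  exact mul_mem hr hπ.mem

theorem oneMod_val {V : ValuationSubring F} {π r : F} (hπ : H48.IsUnif V π)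
    (hr : r * π⁻¹ ∈ V) {u : F} (hu : OneMod V r u) : V.valuation u = 1 := by
  obtain ⟨y, hy, rfl⟩ := hu
  exact Valuation.map_one_add_of_lt _ (val_lt_one_of_mem hπ hr hy)

theorem oneMod_ne_zero {V : ValuationSubring F} {π r : F} (hπ : H48.IsUnif V π)
    (hr : r * π⁻¹ ∈ V) {u : F} (hu : OneMod V r u) : u ≠ 0 := by
  intro h
  have := oneMod_val hπ hr hu
  rw [h, map_zero] at this
  exact zero_ne_one this

theorem oneMod_one (V : ValuationSubring F) (r : F) : OneMod V r 1 :=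
  ⟨0, zero_mem _, by ring⟩

theorem oneMod_mul {V : ValuationSubring F} {r : F} (hr : r ∈ V) {u v : F}
    (hu : OneMod V r u) (hv : OneMod V r v) : OneMod V r (u * v) := by
  obtain ⟨a, ha, rfl⟩ := hu
  obtain ⟨b, hb, rfl⟩ := hv
  exact ⟨a + b + r * a * b, add_mem (add_mem ha hb) (mul_mem (mul_mem hr ha) hb), by ring⟩

theorem oneMod_pow {V : ValuationSubring F} {r : F} (hr : r ∈ V) {u : F}
    (hu : OneMod V r u) (n : ℕ) : OneMod V r (u ^ n) := by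
  induction n with
  | zero => rw [pow_zero]; exact oneMod_one V r
  | succ n ih => rw [pow_succ]; exact oneMod_mul hr ih hu

theorem oneMod_inv {V : ValuationSubring F} {π r : F} (hπ : H48.IsUnif V π)
    (hr : r * π⁻¹ ∈ V) {u : F} (hu : OneMod V r u) : OneMod V r u⁻¹ := by
  have hval := oneMod_val hπ hr hu
  have hu0 := oneMod_ne_zero hπ hr hu
  obtain ⟨y, hy, hyu⟩ := hu
  have huinv : u⁻¹ ∈ V := by
    rw [← V.valuation_le_one_iff, map_inv₀, hval, inv_one]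
  refine ⟨-(y * u⁻¹), neg_mem (mul_mem hy huinv), ?_⟩
  have h1 : r * y = u - 1 := by rw [hyu]; ring
  have : 1 + r * -(y * u⁻¹) = 1 - (r * y) * u⁻¹ := by ring
  rw [this, h1]
  field_simp
  ring

/-! ### Approximation -/

/-- For `c` in the maximal ideal and any `x`, some power `c ^ n * x` is integral; the set of
such `n` is upward closed. -/
theorem exists_pow_mul_mem {V : ValuationSubring F} {π : F} (hπ : H48.IsUnif V π)
    (harch : ∀ x : F, ∃ n : ℕ, π ^ n * x ∈ V) {c : F} (hc : V.valuation c < 1) (x : F) :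
    ∃ n : ℕ, ∀ m : ℕ, n ≤ m → c ^ m * x ∈ V := by
  obtain ⟨n, hn⟩ := harch x
  have hcπ : c * π⁻¹ ∈ V := hπ.mul_inv_mem_iff.2 hc
  have hcV : c ∈ V := (V.valuation_le_one_iff c).1 hc.le
  refine ⟨n, fun m hm => ?_⟩
  obtain ⟨k, rfl⟩ := Nat.exists_eq_add_of_le hm
  have : c ^ (n + k) * x = c ^ k * (c * π⁻¹) ^ n * (π ^ n * x) := by
    rw [pow_add, mul_pow, inv_pow]
    field_simp [hπ.ne_zero]
  rw [this]
  exact mul_mem (mul_mem (pow_mem hcV k) (pow_mem hcπ n)) hn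

/-- **Multiplicative weak approximation.**  For `g₁, g₂ ≠ 0` there is `h` with
`h ∈ g₁ (1 + r V₁)` and `h ∈ g₂ (1 + r V₂)`. -/
theorem exists_common {V₁ V₂ : ValuationSubring F} {π : F}
    (h₁ : H48.IsUnif V₁ π) (h₂ : H48.IsUnif V₂ π) (hne : V₁ ≠ V₂)
    (ha₁ : ∀ x : F, ∃ n : ℕ, π ^ n * x ∈ V₁) (ha₂ : ∀ x : F, ∃ n : ℕ, π ^ n * x ∈ V₂)
    {r : F} (hr0 : r ≠ 0) {g₁ g₂ : F} (hg₁ : g₁ ≠ 0) (hg₂ : g₂ ≠ 0) :
    ∃ h : F, (∃ t ∈ V₁, h = g₁ * (1 + r * t)) ∧ (∃ t ∈ V₂, h = g₂ * (1 + r * t)) := by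
  obtain ⟨c, hc0, hc1, hc2⟩ := H48.exists_separating h₁ h₂ hne
  obtain ⟨n₁, hn₁⟩ := exists_pow_mul_mem h₁ ha₁ hc1 ((g₂ - g₁) / (r * g₁))
  obtain ⟨n₂, hn₂⟩ := exists_pow_mul_mem h₂ ha₂ hc2 ((g₁ - g₂) / (r * g₂))
  set n := max (max n₁ n₂) 1 with hn
  have hn1 : n₁ ≤ n := le_trans (le_max_left _ _) (le_max_left _ _)
  have hn2 : n₂ ≤ n := le_trans (le_max_right _ _) (le_max_left _ _)
  have hnpos : n ≠ 0 := by
    have : 1 ≤ n := le_max_right _ _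
    omega
  have hcn1 : V₁.valuation (c ^ n) < 1 := by
    rw [map_pow]; exact pow_lt_one₀ zero_le hc1 hnpos
  have hcn2 : V₂.valuation ((c⁻¹) ^ n) < 1 := by
    rw [map_pow]; exact pow_lt_one₀ zero_le hc2 hnpos
  have hu1 : V₁.valuation (1 + c ^ n) = 1 := Valuation.map_one_add_of_lt _ hcn1
  have hu2 : V₂.valuation (1 + (c⁻¹) ^ n) = 1 := Valuation.map_one_add_of_lt _ hcn2
  have hne1 : 1 + c ^ n ≠ 0 := by
    intro h; rw [h, map_zero] at hu1; exact zero_ne_one hu1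
  have hne2 : 1 + (c⁻¹) ^ n ≠ 0 := by
    intro h; rw [h, map_zero] at hu2; exact zero_ne_one hu2
  have hcn0 : c ^ n ≠ 0 := pow_ne_zero _ hc0
  -- the two units
  have he1 : (1 + c ^ n)⁻¹ ∈ V₁ := by
    rw [← V₁.valuation_le_one_iff, map_inv₀, hu1, inv_one]
  have he2 : (1 + (c⁻¹) ^ n)⁻¹ ∈ V₂ := by
    rw [← V₂.valuation_le_one_iff, map_inv₀, hu2, inv_one]
  set e := (1 + c ^ n)⁻¹ with he
  have hee2 : e = (c⁻¹) ^ n * (1 + (c⁻¹) ^ n)⁻¹ := by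
    rw [he, inv_pow, ← mul_inv, mul_add, mul_one, mul_inv_cancel₀ hcn0, add_comm]
  have h1e : 1 - e = c ^ n * e := by
    rw [he]; field_simp; ring
  refine ⟨g₁ + (g₂ - g₁) * (1 - e), ⟨c ^ n * ((g₂ - g₁) / (r * g₁)) * e, ?_, ?_⟩,
    ⟨(c⁻¹) ^ n * ((g₁ - g₂) / (r * g₂)) * (1 + (c⁻¹) ^ n)⁻¹, ?_, ?_⟩⟩
  · exact mul_mem (hn₁ n hn1) he1
  · rw [h1e]; field_simp
  · exact mul_mem (hn₂ n hn2) he2
  · have : g₁ + (g₂ - g₁) * (1 - e) = g₂ + (g₁ - g₂) * e := by ring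
    rw [this]
    have h5 : g₂ * (1 + r * ((c⁻¹) ^ n * ((g₁ - g₂) / (r * g₂)) * (1 + (c⁻¹) ^ n)⁻¹))
        = g₂ + (g₁ - g₂) * ((c⁻¹) ^ n * (1 + (c⁻¹) ^ n)⁻¹) := by
      field_simp
    rw [h5, ← hee2]

/-! ### The leaf -/

/-- **MERGE.** -/
theorem merge : MergeStatement := by
  intro F _ V₁ V₂ π h₁ h₂ hne ha₁ ha₂ p r f hr0 hr₁ hr₂ hD₁ hD₂
  obtain ⟨g₁, u₁, hg₁, hf₁, hu₁⟩ := hD₁
  obtain ⟨g₂, u₂, hg₂, hf₂, hu₂⟩ := hD₂
  obtain ⟨h, ⟨t₁, ht₁, hh₁⟩, ⟨t₂, ht₂, hh₂⟩⟩ :=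
    exists_common h₁ h₂ hne ha₁ ha₂ hr0 hg₁ hg₂
  have hrV₁ : r ∈ V₁ := mem_of_mul_inv_mem h₁ hr₁
  have hrV₂ : r ∈ V₂ := mem_of_mul_inv_mem h₂ hr₂
  have hw₁ : OneMod V₁ r (1 + r * t₁) := ⟨t₁, ht₁, rfl⟩
  have hw₂ : OneMod V₂ r (1 + r * t₂) := ⟨t₂, ht₂, rfl⟩
  have hw₁0 := oneMod_ne_zero h₁ hr₁ hw₁
  have hw₂0 := oneMod_ne_zero h₂ hr₂ hw₂
  have hh0 : h ≠ 0 := by rw [hh₁]; exact mul_ne_zero hg₁ hw₁0
  have e₁ : f * (h ^ p)⁻¹ = u₁ * ((1 + r * t₁)⁻¹) ^ p := by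
    rw [hf₁, hh₁, mul_pow, inv_pow]
    field_simp
  have e₂ : f * (h ^ p)⁻¹ = u₂ * ((1 + r * t₂)⁻¹) ^ p := by
    rw [hf₂, hh₂, mul_pow, inv_pow]
    field_simp
  refine ⟨h, f * (h ^ p)⁻¹, hh0, ?_, ?_, ?_⟩
  · field_simp
  · rw [e₁]
    exact oneMod_mul hrV₁ hu₁ (oneMod_pow hrV₁ (oneMod_inv h₁ hr₁ hw₁) p)
  · rw [e₂]
    exact oneMod_mul hrV₂ hu₂ (oneMod_pow hrV₂ (oneMod_inv h₂ hr₂ hw₂) p)

end Fermat.Agent.Ribet.H73
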